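import Mathlib

/-!
# Degree-2 inflation–restriction: elementary cochain core

`Fermat.Agent.S55.InfRes98` (helper98).  Everything here is about plain functions
`u : G × G → A`, `c : G → A` for a `k`-linear representation `ρ` of a group `G` on `A` and a
normal subgroup `S`.  No category theory.  The conventions are those of Mathlib's
`groupCohomology.cocycles₂` / `d₁₂`:

* 2-cocycle identity: `u (g * h, j) + u (g, h) = ρ g (u (h, j)) + u (g, h * j)`;
* coboundary: `(∂c) (g, h) = ρ g (c h) - c (g * h) + c g`.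

Main results:

* `exists_sub_dOne_invariant` : if `H¹(S, A) = 0` (elementary form `H1Vanishes`) and the
  2-cocycle `u` restricted to `S × S` is a coboundary, then `u - ∂c` is, for a suitable `c`,
  right-`S`-invariant in both variables and takes values in `A^S` (i.e. it is inflated from
  `G ⧸ S`).
* `exists_invariant_of_eq_dOne` : if `H¹(S, A) = 0` and an inflated cocycle `u` is `∂c`, then
  `u = ∂c'` with `c'` right-`S`-invariant with values in `A^S`.
-/

namespace Fermat.Agent.S55.InfRes98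

variable {k : Type*} {G : Type*} {A : Type*} [CommRing k] [Group G] [AddCommGroup A] [Module k A]
variable (ρ : Representation k G A) (S : Subgroup G)

/-- The 2-cocycle identity, in the normal form of `groupCohomology.mem_cocycles₂_iff`. -/
def IsCoc2 (u : G × G → A) : Prop :=
  ∀ g h j : G, u (g * h, j) + u (g, h) = ρ g (u (h, j)) + u (g, h * j)

/-- The coboundary of a 1-cochain, as in `groupCohomology.d₁₂_hom_apply`. -/
def dOne (c : G → A) : G × G → A := fun p => ρ p.1 (c p.2) - c (p.1 * p.2) + c p.1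

@[simp] lemma dOne_apply (c : G → A) (g h : G) :
    dOne ρ c (g, h) = ρ g (c h) - c (g * h) + c g := rfl

lemma rho_mul_apply (g h : G) (a : A) : ρ (g * h) a = ρ g (ρ h a) := by
  rw [map_mul]; rfl

lemma rho_one_apply (a : A) : ρ 1 a = a := by
  rw [map_one]; rfl

lemma isCoc2_dOne (c : G → A) : IsCoc2 ρ (dOne ρ c) := by
  intro g h j
  simp only [dOne_apply, map_add, map_sub, mul_assoc, rho_mul_apply]
  abel

variable {ρ} in
lemma IsCoc2.sub {u v : G × G → A} (hu : IsCoc2 ρ u) (hv : IsCoc2 ρ v) : IsCoc2 ρ (u - v) := by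
  intro g h j
  have h1 := hu g h j
  have h2 := hv g h j
  simp only [Pi.sub_apply, map_sub]
  linear_combination (norm := abel) h1 - h2

variable {ρ} in
lemma IsCoc2.add {u v : G × G → A} (hu : IsCoc2 ρ u) (hv : IsCoc2 ρ v) : IsCoc2 ρ (u + v) := by
  intro g h j
  have h1 := hu g h j
  have h2 := hv g h j
  simp only [Pi.add_apply, map_add]
  linear_combination (norm := abel) h1 + h2

/-- Elementary form of `H¹(S, A) = 0`: every 1-cocycle of `S` with values in `A` is a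
coboundary. -/
def H1Vanishes : Prop :=
  ∀ c : S → A, (∀ s t : S, c (s * t) = ρ s (c t) + c s) → ∃ a : A, ∀ s : S, c s = ρ s a - a

section basic

variable {ρ} {u : G × G → A}

lemma IsCoc2.map_one_fst (hu : IsCoc2 ρ u) (g : G) : u (1, g) = u (1, 1) := by
  have := hu 1 1 g
  simp only [one_mul, rho_one_apply] at this
  exact (add_right_injective _ this).symm

lemma IsCoc2.map_one_snd (hu : IsCoc2 ρ u) (g : G) : u (g, 1) = ρ g (u (1, 1)) := by
  have := hu g 1 1
  simp only [mul_one] at this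
  exact add_left_injective _ this

end basic

section transversal

variable [S.Normal]

/-- A set-theoretic section of `G → G ⧸ S`, in the form needed below: `g * (τ g)⁻¹ ∈ S` and `τ` is
left-`S`-invariant. -/
lemma exists_transversal :
    ∃ τ : G → G, (∀ g, g * (τ g)⁻¹ ∈ S) ∧ ∀ s ∈ S, ∀ g, τ (s * g) = τ g := by
  refine ⟨fun g => (QuotientGroup.mk g : G ⧸ S).out, fun g => ?_, fun s hs g => ?_⟩
  · obtain ⟨h, hh⟩ := QuotientGroup.mk_out_eq_mul S g
    simp only [hh, mul_inv_rev]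
    have := Subgroup.Normal.conj_mem ‹S.Normal› _ (S.inv_mem h.2) g
    simpa [mul_assoc] using this
  · have : (QuotientGroup.mk (s * g) : G ⧸ S) = QuotientGroup.mk g := by
      rw [QuotientGroup.eq]
      have := Subgroup.Normal.conj_mem' ‹S.Normal› _ (S.inv_mem hs) g
      simpa [mul_assoc] using this
    simp only [this]

end transversal

section steps

variable {ρ} {S} {u : G × G → A}

/-- Step 0: if `u` restricted to `S × S` is the coboundary of `c₀ : S → A`, then subtracting the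
coboundary of the extension by zero of `c₀` makes `u` vanish on `S × S`. -/
lemma exists_sub_dOne_vanish_SS (c₀ : S → A)
    (h₀ : ∀ s t : S, u (s, t) = ρ s (c₀ t) - c₀ (s * t) + c₀ s) :
    ∃ c : G → A, ∀ s ∈ S, ∀ t ∈ S, (u - dOne ρ c) (s, t) = 0 := by
  classical
  refine ⟨fun g => if h : g ∈ S then c₀ ⟨g, h⟩ else 0, fun s hs t ht => ?_⟩
  have := h₀ ⟨s, hs⟩ ⟨t, ht⟩
  simp only [Pi.sub_apply, dOne_apply, dif_pos hs, dif_pos ht, dif_pos (S.mul_mem hs ht)]
  rw [sub_eq_zero]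
  exact this

/-- Step 1: if the cocycle `u` vanishes on `S × S`, then subtracting a coboundary makes
`u (s, g) = 0` for all `s ∈ S`, `g ∈ G`. -/
lemma exists_sub_dOne_vanish_S_left [S.Normal] (hu : IsCoc2 ρ u)
    (V0 : ∀ s ∈ S, ∀ t ∈ S, u (s, t) = 0) :
    ∃ c : G → A, ∀ s ∈ S, ∀ g, (u - dOne ρ c) (s, g) = 0 := by
  obtain ⟨τ, hτ, hτS⟩ := exists_transversal S
  refine ⟨fun g => - u (g * (τ g)⁻¹, τ g), fun s hs g => ?_⟩
  have hτs : τ s ∈ S := by
    have := S.mul_mem (S.inv_mem (hτ s)) hs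
    simpa [mul_assoc] using this
  have e1 : u (s * (τ s)⁻¹, τ s) = 0 := V0 _ (hτ s) _ hτs
  have e2 : u (s, g * (τ g)⁻¹) = 0 := V0 _ hs _ (hτ g)
  have e3 := hu s (g * (τ g)⁻¹) (τ g)
  simp only [inv_mul_cancel_right] at e3
  simp only [Pi.sub_apply, dOne_apply, hτS s hs g, e1, map_neg, mul_assoc]
  rw [e2] at e3
  linear_combination (norm := abel) e3.symm

/-- If `u (s, g) = 0` for `s ∈ S`, then `u (s * g, h) = ρ s (u (g, h))`. -/
lemma IsCoc2.map_S_mul_left (hu : IsCoc2 ρ u) (V1 : ∀ s ∈ S, ∀ g, u (s, g) = 0)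
    {s : G} (hs : s ∈ S) (g h : G) : u (s * g, h) = ρ s (u (g, h)) := by
  have := hu s g h
  rw [V1 s hs, V1 s hs] at this
  simpa using this

/-- If `u (s, g) = 0` for `s ∈ S`, then `s ↦ u (g, g⁻¹ * s * g)` is a 1-cocycle of `S`. -/
lemma IsCoc2.conj_cocycle [S.Normal] (hu : IsCoc2 ρ u) (V1 : ∀ s ∈ S, ∀ g, u (s, g) = 0)
    (g : G) {s : G} (hs : s ∈ S) (s' : G) :
    u (g, g⁻¹ * (s * s') * g) = ρ s (u (g, g⁻¹ * s' * g)) + u (g, g⁻¹ * s * g) := by
  have hn : g⁻¹ * s * g ∈ S := Subgroup.Normal.conj_mem' ‹S.Normal› _ hs g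
  have h1 := hu g (g⁻¹ * s * g) (g⁻¹ * s' * g)
  have e1 : g * (g⁻¹ * s * g) = s * g := by group
  have e2 : g⁻¹ * s * g * (g⁻¹ * s' * g) = g⁻¹ * (s * s') * g := by group
  rw [e1, e2, V1 _ hn, hu.map_S_mul_left V1 hs, map_zero, zero_add] at h1
  exact h1.symm

/-- Step 2: if `u (s, g) = 0` for `s ∈ S` and `H¹(S, A) = 0`, there is a 1-cochain `a` vanishing
on `S`, `S`-equivariant on the left, with `u (g, g⁻¹ * s * g) = ρ s (a g) - a g`. -/
lemma exists_equivariant_primitive [S.Normal] (hu : IsCoc2 ρ u)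
    (V1 : ∀ s ∈ S, ∀ g, u (s, g) = 0) (hH1 : H1Vanishes ρ S) :
    ∃ a : G → A, (∀ s ∈ S, a s = 0) ∧ (∀ s ∈ S, ∀ g, a (s * g) = ρ s (a g)) ∧
      ∀ g, ∀ s ∈ S, u (g, g⁻¹ * s * g) = ρ s (a g) - a g := by
  classical
  obtain ⟨τ, hτ, hτS⟩ := exists_transversal S
  have hτs : ∀ s ∈ S, τ s ∈ S := fun s hs => by
    have := S.mul_mem (S.inv_mem (hτ s)) hs
    simpa [mul_assoc] using this
  have key : ∀ t : G, ∃ a : A, (t ∈ S → a = 0) ∧
      ∀ s ∈ S, u (t, t⁻¹ * s * t) = ρ s a - a := by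
    intro t
    by_cases ht : t ∈ S
    · exact ⟨0, fun _ => rfl, fun s _ => by simp [V1 t ht]⟩
    · obtain ⟨a, ha⟩ := hH1 (fun s : S => u (t, t⁻¹ * (s : G) * t)) (fun s s' => by
        simpa using hu.conj_cocycle V1 t s.2 (s' : G))
      exact ⟨a, fun h => absurd h ht, fun s hs => ha ⟨s, hs⟩⟩
  choose a ha0 ha using key
  refine ⟨fun g => ρ (g * (τ g)⁻¹) (a (τ g)), fun s hs => ?_, fun s hs g => ?_, fun g s hs => ?_⟩
  · simp [ha0 _ (hτs s hs)]
  · simp only [hτS s hs g, mul_assoc, rho_mul_apply]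
  · have hν : g * (τ g)⁻¹ ∈ S := hτ g
    have hs' : (g * (τ g)⁻¹)⁻¹ * s * (g * (τ g)⁻¹) ∈ S :=
      Subgroup.Normal.conj_mem' ‹S.Normal› _ hs _
    have e : (g, g⁻¹ * s * g) = (g * (τ g)⁻¹ * τ g,
        (τ g)⁻¹ * ((g * (τ g)⁻¹)⁻¹ * s * (g * (τ g)⁻¹)) * τ g) :=
      Prod.ext (by group) (by group)
    rw [e, hu.map_S_mul_left V1 hν, ha (τ g) _ hs', map_sub, ← rho_mul_apply, ← rho_mul_apply]
    congr 2
    group

/-- Step 3: adding the coboundary of the cochain of `exists_equivariant_primitive` makes `u` vanish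
on `S × G` and on `G × S`. -/
lemma exists_sub_dOne_vanish_S_both [S.Normal] (hu : IsCoc2 ρ u)
    (V1 : ∀ s ∈ S, ∀ g, u (s, g) = 0) (hH1 : H1Vanishes ρ S) :
    ∃ c : G → A, (∀ s ∈ S, ∀ g, (u - dOne ρ c) (s, g) = 0) ∧
      ∀ s ∈ S, ∀ g, (u - dOne ρ c) (g, s) = 0 := by
  obtain ⟨a, ha0, haS, ha⟩ := exists_equivariant_primitive hu V1 hH1
  refine ⟨fun g => - a g, fun s hs g => ?_, fun s hs g => ?_⟩
  · simp [V1 s hs, haS s hs, ha0 s hs]
  · have hn : g * s * g⁻¹ ∈ S := Subgroup.Normal.conj_mem ‹S.Normal› _ hs g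
    have e1 : g * s = g * s * g⁻¹ * g := by group
    have e2 : u (g, s) = u (g, g⁻¹ * (g * s * g⁻¹) * g) := by congr 2; group
    have e3 := ha g _ hn
    simp only [Pi.sub_apply, dOne_apply, ha0 s hs, map_zero, neg_zero]
    rw [e2, e3, e1, haS _ hn, ← e1]
    abel

/-- Step 4: a cocycle vanishing on `S × G` and `G × S` is inflated from `G ⧸ S`. -/
lemma IsCoc2.invariant_of_vanish [S.Normal] (hu : IsCoc2 ρ u)
    (V1 : ∀ s ∈ S, ∀ g, u (s, g) = 0) (V2 : ∀ s ∈ S, ∀ g, u (g, s) = 0) :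
    (∀ g h, ∀ n ∈ S, u (g * n, h) = u (g, h)) ∧ (∀ g h, ∀ n ∈ S, u (g, h * n) = u (g, h)) ∧
      ∀ g h, ∀ s ∈ S, ρ s (u (g, h)) = u (g, h) := by
  have B : ∀ g h, ∀ n ∈ S, u (g, h * n) = u (g, h) := fun g h n hn => by
    have := hu g h n
    rw [V2 n hn, V2 n hn, map_zero, zero_add, zero_add] at this
    exact this.symm
  have C : ∀ g h, ∀ n ∈ S, u (g * n, h) = u (g, h) := fun g h n hn => by
    have := hu g n h
    rw [V2 n hn, V1 n hn, map_zero, zero_add, add_zero] at this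
    have hn' : h⁻¹ * n * h ∈ S := Subgroup.Normal.conj_mem' ‹S.Normal› _ hn h
    have e : n * h = h * (h⁻¹ * n * h) := by group
    rw [this, e, B g h _ hn']
  refine ⟨C, B, fun g h s hs => ?_⟩
  have hn' : g⁻¹ * s * g ∈ S := Subgroup.Normal.conj_mem' ‹S.Normal› _ hs g
  have e : s * g = g * (g⁻¹ * s * g) := by group
  rw [← hu.map_S_mul_left V1 hs, e, C g h _ hn']

end steps

section main

variable {ρ} {S} {u : G × G → A}

lemma dOne_add (c c' : G → A) : dOne ρ (c + c') = dOne ρ c + dOne ρ c' := by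
  funext ⟨g, h⟩
  simp only [dOne_apply, Pi.add_apply, map_add]
  abel

/-- `u` is inflated from `G ⧸ S`: right-`S`-invariant in both variables, with values in the
`S`-invariants. -/
structure IsInflated2 (ρ : Representation k G A) (S : Subgroup G) (u : G × G → A) : Prop where
  mul_right_fst : ∀ g h, ∀ n ∈ S, u (g * n, h) = u (g, h)
  mul_right_snd : ∀ g h, ∀ n ∈ S, u (g, h * n) = u (g, h)
  invariant : ∀ g h, ∀ s ∈ S, ρ s (u (g, h)) = u (g, h)

/-- `c` is inflated from `G ⧸ S`: right-`S`-invariant with values in the `S`-invariants. -/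
structure IsInflated1 (ρ : Representation k G A) (S : Subgroup G) (c : G → A) : Prop where
  mul_right : ∀ g, ∀ n ∈ S, c (g * n) = c g
  invariant : ∀ g, ∀ s ∈ S, ρ s (c g) = c g

/-- **Exactness core.** If `H¹(S, A) = 0` and the restriction of the 2-cocycle `u` to `S × S` is a
coboundary, then `u` is cohomologous to a cocycle inflated from `G ⧸ S`. -/
theorem exists_sub_dOne_isInflated2 [S.Normal] (hH1 : H1Vanishes ρ S) (hu : IsCoc2 ρ u)
    (c₀ : S → A) (h₀ : ∀ s t : S, u (s, t) = ρ s (c₀ t) - c₀ (s * t) + c₀ s) :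
    ∃ c : G → A, IsInflated2 ρ S (u - dOne ρ c) := by
  obtain ⟨c0, h0⟩ := exists_sub_dOne_vanish_SS c₀ h₀
  have hu1 : IsCoc2 ρ (u - dOne ρ c0) := hu.sub (isCoc2_dOne ρ c0)
  obtain ⟨c1, h1⟩ := exists_sub_dOne_vanish_S_left hu1 h0
  have hu2 : IsCoc2 ρ (u - dOne ρ c0 - dOne ρ c1) := hu1.sub (isCoc2_dOne ρ c1)
  obtain ⟨c2, h2, h2'⟩ := exists_sub_dOne_vanish_S_both hu2 h1 hH1
  have hu3 : IsCoc2 ρ (u - dOne ρ c0 - dOne ρ c1 - dOne ρ c2) := hu2.sub (isCoc2_dOne ρ c2)
  have e : u - dOne ρ (c0 + c1 + c2) = u - dOne ρ c0 - dOne ρ c1 - dOne ρ c2 := by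
    rw [dOne_add, dOne_add]; abel
  refine ⟨c0 + c1 + c2, ?_⟩
  rw [e]
  obtain ⟨i1, i2, i3⟩ := hu3.invariant_of_vanish h2 h2'
  exact ⟨i1, i2, i3⟩

/-- **Injectivity core.** If `H¹(S, A) = 0` and an inflated cocycle `u` is the coboundary of some
`c : G → A`, then it is the coboundary of an inflated 1-cochain. -/
theorem exists_isInflated1_of_eq_dOne [S.Normal] (hH1 : H1Vanishes ρ S) (hu : IsCoc2 ρ u)
    (hinf : IsInflated2 ρ S u) (c : G → A) (hc : u = dOne ρ c) :
    ∃ c' : G → A, u = dOne ρ c' ∧ IsInflated1 ρ S c' := by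
  obtain ⟨hu1, hu2, hu3⟩ := hinf
  have he : ∀ s ∈ S, ρ s (u (1, 1)) = u (1, 1) := hu3 1 1
  have huS : ∀ s ∈ S, ∀ g, u (s, g) = u (1, 1) := fun s hs g => by
    have := hu1 1 g s hs
    rw [one_mul] at this
    rw [this, hu.map_one_fst]
  have huS' : ∀ s ∈ S, ∀ g, u (g, s) = ρ g (u (1, 1)) := fun s hs g => by
    have := hu2 g 1 s hs
    rw [one_mul] at this
    rw [this, hu.map_one_snd]
  have hcu : ∀ g h, u (g, h) = ρ g (c h) - c (g * h) + c g := fun g h => by rw [hc]; rfl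
  obtain ⟨a, ha⟩ := hH1 (fun s : S => c s - u (1, 1)) (fun s t => by
    have h1 := hcu s t
    rw [huS s s.2] at h1
    simp only [Subgroup.coe_mul, map_sub, he s s.2]
    linear_combination (norm := abel) h1)
  have hdc : ∀ g h, u (g, h) = dOne ρ (fun g => c g - (ρ g a - a)) (g, h) := fun g h => by
    rw [hcu]
    simp only [dOne_apply, map_sub, rho_mul_apply]
    abel
  have hcS : ∀ s ∈ S, c s - (ρ s a - a) = u (1, 1) := fun s hs => by
    have := ha ⟨s, hs⟩
    simp only at this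
    rw [← this]; abel
  have hr : ∀ g, ∀ n ∈ S, c (g * n) - (ρ (g * n) a - a) = c g - (ρ g a - a) := fun g n hn => by
    have h1 := hdc g n
    rw [huS' n hn, dOne_apply, hcS n hn] at h1
    linear_combination (norm := abel) h1
  have hl : ∀ s ∈ S, ∀ g, c (s * g) - (ρ (s * g) a - a) = ρ s (c g - (ρ g a - a)) :=
    fun s hs g => by
    have h1 := hdc s g
    rw [huS s hs, dOne_apply, hcS s hs] at h1
    linear_combination (norm := abel) h1
  refine ⟨fun g => c g - (ρ g a - a), funext fun ⟨g, h⟩ => hdc g h, ⟨hr, fun g s hs => ?_⟩⟩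
  have hn' : g⁻¹ * s * g ∈ S := Subgroup.Normal.conj_mem' ‹S.Normal› _ hs g
  have e : s * g = g * (g⁻¹ * s * g) := by group
  rw [← hl s hs g, e]
  exact hr g _ hn'

end main

end Fermat.Agent.S55.InfRes98
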