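import Mathlib
import Fermat.Agent.S55.InfRes98.Core

/-!
# Degree-2 inflation–restriction for Mathlib's `groupCohomology`

`Fermat.Agent.S55.InfRes98` (helper98).  For a normal subgroup `S` of `G` and `A : Rep k G` with
`H¹(S, A) = 0`, the sequence `0 ⟶ H²(G ⧸ S, A^S) ⟶ H²(G, A) ⟶ H²(S, A)` is exact.
-/

open CategoryTheory groupCohomology Rep

namespace Fermat.Agent.S55.InfRes98

universe u

section one

variable {k G H : Type u} [CommRing k] [Group G] [Group H] {A : Rep k H} {B : Rep k G}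

/-- Degree-2 analogue of Mathlib's `groupCohomology.map₁_one`. -/
theorem map₂_one (φ : res (1 : G →* H) A ⟶ B) : map 1 φ 2 = 0 := by
  rw [← cancel_epi (H2π A), H2π_comp_map, Limits.comp_zero]
  ext x
  rw [ModuleCat.comp_apply]
  refine (H2π_eq_zero_iff _).2 ⟨fun _ => φ.hom (x (1, 1)), ?_⟩
  funext ⟨g, h⟩
  have h0 := hom_comm_apply φ g (x (1, 1))
  have h1 : (res (1 : G →* H) A).ρ g (x (1, 1)) = x (1, 1) := by
    change A.ρ ((1 : G →* H) g) _ = _
    simp
  have h2 : (mapCocycles₂ 1 φ x) (g, h) = φ.hom (x (1, 1)) := rfl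
  rw [d₁₂_hom_apply, h2, ← h0, h1]
  abel

end one

variable {k G : Type u} [CommRing k] [Group G] (A : Rep.{u} k G) (S : Subgroup G) [S.Normal]

/-- The short complex `H²(G ⧸ S, A^S) ⟶ H²(G, A) ⟶ H²(S, A)`
(degree-2 analogue of Mathlib's `groupCohomology.H1InfRes`). -/
@[simps X₁ X₂ X₃ f g]
noncomputable def H2InfRes :
    ShortComplex (ModuleCat k) where
  X₁ := groupCohomology (A.quotientToInvariants S) 2
  X₂ := groupCohomology A 2
  X₃ := groupCohomology (res S.subtype A) 2
  f := map (QuotientGroup.mk' S) (ofHom <| A.ρ.quotientToInvariants_lift S) 2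
  g := map S.subtype (𝟙 _) 2
  zero := by rw [← map_comp, Category.comp_id, groupCohomology.congr (QuotientGroup.mk'_comp_subtype S)
    (fun f φ => map f φ 2), map₂_one]

section bridge

variable {A} {S}

lemma isCoc2_coe (x : cocycles₂ A) : IsCoc2 A.ρ ⇑x := (mem_cocycles₂_iff x).1 x.2

lemma dOne_eq_d₁₂ (c : G → A) : dOne A.ρ c = (d₁₂ A).hom c := by
  funext ⟨g, h⟩
  rw [d₁₂_hom_apply, dOne_apply]

omit [S.Normal] in
/-- `H¹(S, A) = 0` in Mathlib's sense gives the elementary form used in `Core`. -/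
lemma h1Vanishes_of_H1 (h1 : ∀ x : H1 (res S.subtype A), x = 0) : H1Vanishes A.ρ S := by
  intro c hc
  have hc' : c ∈ cocycles₁ (res S.subtype A) :=
    (mem_cocycles₁_iff (A := res S.subtype A) c).2 hc
  obtain ⟨a, ha⟩ := (H1π_eq_zero_iff (A := res S.subtype A) ⟨c, hc'⟩).1 (h1 _)
  refine ⟨a, fun s => ?_⟩
  have := congr_fun ha s
  rw [d₀₁_hom_apply] at this
  exact this.symm

end bridge

section descent

variable {A} {S}

/-- Descent of an inflated 2-cochain to `G ⧸ S`. -/
noncomputable def descend2 (v : G × G → A) (hv : IsInflated2 A.ρ S v) :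
    (G ⧸ S) × (G ⧸ S) → A.quotientToInvariants S :=
  fun p => ⟨v (p.1.out, p.2.out), fun s => hv.invariant _ _ s s.2⟩

/-- Descent of an inflated 1-cochain to `G ⧸ S`. -/
noncomputable def descend1 (c : G → A) (hc : IsInflated1 A.ρ S c) :
    (G ⧸ S) → A.quotientToInvariants S :=
  fun p => ⟨c p.out, fun s => hc.invariant _ s s.2⟩

lemma descend2_mk (v : G × G → A) (hv : IsInflated2 A.ρ S v) (g h : G) :
    ((descend2 v hv (QuotientGroup.mk g, QuotientGroup.mk h)).1 : A) = v (g, h) := by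
  obtain ⟨n, hn⟩ := QuotientGroup.mk_out_eq_mul S g
  obtain ⟨m, hm⟩ := QuotientGroup.mk_out_eq_mul S h
  change v ((QuotientGroup.mk g : G ⧸ S).out, (QuotientGroup.mk h : G ⧸ S).out) = v (g, h)
  rw [hn, hm, hv.mul_right_fst _ _ _ n.2, hv.mul_right_snd _ _ _ m.2]

lemma descend1_mk (c : G → A) (hc : IsInflated1 A.ρ S c) (g : G) :
    ((descend1 c hc (QuotientGroup.mk g)).1 : A) = c g := by
  obtain ⟨n, hn⟩ := QuotientGroup.mk_out_eq_mul S g
  change c ((QuotientGroup.mk g : G ⧸ S).out) = c g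
  rw [hn, hc.mul_right _ _ n.2]

lemma quotientToInvariants_ρ_mk_coe (g : G) (a : A.quotientToInvariants S) :
    (((A.quotientToInvariants S).ρ (QuotientGroup.mk g) a).1 : A) = A.ρ g a.1 := rfl

lemma descend2_mem_cocycles₂ (v : G × G → A) (hv : IsInflated2 A.ρ S v) (hc : IsCoc2 A.ρ v) :
    descend2 v hv ∈ cocycles₂ (A.quotientToInvariants S) := by
  rw [mem_cocycles₂_iff]
  intro X Y Z
  induction X using QuotientGroup.induction_on with | H g =>
  induction Y using QuotientGroup.induction_on with | H h =>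
  induction Z using QuotientGroup.induction_on with | H j =>
  apply Subtype.ext
  rw [← QuotientGroup.mk_mul, ← QuotientGroup.mk_mul]
  change (descend2 v hv (↑(g * h), ↑j)).1 + (descend2 v hv (↑g, ↑h)).1 =
    (((A.quotientToInvariants S).ρ ↑g) (descend2 v hv (↑h, ↑j))).1 +
      (descend2 v hv (↑g, ↑(h * j))).1
  rw [quotientToInvariants_ρ_mk_coe]
  simp only [descend2_mk]
  exact hc g h j

end descent

section main

/-- Elementwise form of exactness: if `H¹(S, A) = 0` and the restriction to `S × S` of a 2-cocycle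
`x` of `G` is the coboundary of `y : S → A`, then `x` differs by the coboundary of some `c : G → A`
from the inflation of a 2-cocycle `z` of `G ⧸ S` with values in `A^S`. -/
theorem exists_cocycle_inflation_add_dOne (h1 : ∀ x : H1 (res S.subtype A), x = 0)
    (x : cocycles₂ A) (y : S → A)
    (h₀ : ∀ s t : S, x ((s : G), (t : G)) = A.ρ s (y t) - y (s * t) + y s) :
    ∃ (z : cocycles₂ (A.quotientToInvariants S)) (c : G → A), ∀ g h : G,
      x (g, h) = ((z ((g : G ⧸ S), (h : G ⧸ S))).1 : A) + (A.ρ g (c h) - c (g * h) + c g) := by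
  obtain ⟨c, hc⟩ := exists_sub_dOne_isInflated2 (h1Vanishes_of_H1 h1) (isCoc2_coe x) y h₀
  have hcoc : IsCoc2 A.ρ (⇑x - dOne A.ρ c) := (isCoc2_coe x).sub (isCoc2_dOne _ c)
  refine ⟨⟨descend2 (⇑x - dOne A.ρ c) hc, descend2_mem_cocycles₂ _ hc hcoc⟩, c, fun g h => ?_⟩
  have e := descend2_mk (⇑x - dOne A.ρ c) hc g h
  change x (g, h) = ((descend2 (⇑x - dOne A.ρ c) hc ((g : G ⧸ S), (h : G ⧸ S))).1 : A) + _
  rw [e, Pi.sub_apply, dOne_apply]
  abel

/-- **Inflation–restriction in degree 2, exactness in the middle**: if `H¹(S, A) = 0`, the short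
complex `H²(G ⧸ S, A^S) ⟶ H²(G, A) ⟶ H²(S, A)` is exact. -/
theorem H2InfRes_exact (h1 : ∀ x : H1 (res S.subtype A), x = 0) : (H2InfRes A S).Exact := by
  rw [ShortComplex.moduleCat_exact_iff_ker_sub_range]
  intro x hx
  induction x using H2_induction_on with | @h x =>
  have hx' : H2π (res S.subtype A) (mapCocycles₂ S.subtype (𝟙 _) x) = 0 :=
    (H2π_comp_map_apply S.subtype (𝟙 _) x).symm.trans (LinearMap.mem_ker.1 hx)
  rcases (H2π_eq_zero_iff _).1 hx' with ⟨(y : S → A), hy⟩
  have h₀ : ∀ s t : S, x ((s : G), (t : G)) = A.ρ s (y t) - y (s * t) + y s := fun s t => by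
    have := congr_fun hy (s, t)
    rw [d₁₂_hom_apply] at this
    exact this.symm
  obtain ⟨z, c, hzc⟩ := exists_cocycle_inflation_add_dOne A S h1 x y h₀
  refine ⟨H2π (A.quotientToInvariants S) z, ?_⟩
  change map (QuotientGroup.mk' S) (ofHom <| A.ρ.quotientToInvariants_lift S) 2 (H2π _ z) = _
  rw [H2π_comp_map_apply]
  symm
  rw [H2π_eq_iff (A := A)]
  refine ⟨c, ?_⟩
  funext ⟨g, h⟩
  have e : (mapCocycles₂ (QuotientGroup.mk' S) (ofHom <| A.ρ.quotientToInvariants_lift S) z) (g, h)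
      = ((z ((g : G ⧸ S), (h : G ⧸ S))).1 : A) := rfl
  rw [d₁₂_hom_apply, Pi.sub_apply, hzc g h, e]
  abel

/-- Elementwise form of injectivity: if `H¹(S, A) = 0` and the inflation of a 2-cocycle `z` of
`G ⧸ S` with values in `A^S` is the coboundary of `c : G → A`, then `z` is itself a coboundary. -/
theorem exists_cochain_of_inflation_eq_dOne (h1 : ∀ x : H1 (res S.subtype A), x = 0)
    (z : cocycles₂ (A.quotientToInvariants S)) (c : G → A)
    (hc : ∀ g h : G, ((z ((g : G ⧸ S), (h : G ⧸ S))).1 : A) = A.ρ g (c h) - c (g * h) + c g) :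
    ∃ b : G ⧸ S → A.quotientToInvariants S, (d₁₂ (A.quotientToInvariants S)).hom b = ⇑z := by
  have hu : IsCoc2 A.ρ (fun p : G × G => ((z ((p.1 : G ⧸ S), (p.2 : G ⧸ S))).1 : A)) := by
    intro g h j
    have := congrArg Subtype.val
      ((mem_cocycles₂_iff z).1 z.2 (g : G ⧸ S) (h : G ⧸ S) (j : G ⧸ S))
    exact this
  have hinf : IsInflated2 A.ρ S (fun p : G × G => ((z ((p.1 : G ⧸ S), (p.2 : G ⧸ S))).1 : A)) := by
    refine ⟨fun g h n hn => ?_, fun g h n hn => ?_, fun g h s hs => ?_⟩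
    · simp only [QuotientGroup.mk_mul_of_mem g hn]
    · simp only [QuotientGroup.mk_mul_of_mem h hn]
    · exact (z ((g : G ⧸ S), (h : G ⧸ S))).2 ⟨s, hs⟩
  obtain ⟨c', hc', hc'inf⟩ := exists_isInflated1_of_eq_dOne (h1Vanishes_of_H1 h1) hu hinf c
    (funext fun ⟨g, h⟩ => hc g h)
  refine ⟨descend1 c' hc'inf, ?_⟩
  funext ⟨X, Y⟩
  induction X using QuotientGroup.induction_on with | H g =>
  induction Y using QuotientGroup.induction_on with | H h =>
  apply Subtype.ext
  rw [d₁₂_hom_apply, ← QuotientGroup.mk_mul]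
  have e := congr_fun hc' (g, h)
  rw [dOne_apply] at e
  change ((A.quotientToInvariants S).ρ ↑g (descend1 c' hc'inf ↑h)).1
    - (descend1 c' hc'inf ↑(g * h)).1 + (descend1 c' hc'inf ↑g).1 = _
  rw [quotientToInvariants_ρ_mk_coe, descend1_mk, descend1_mk, descend1_mk]
  exact e.symm

/-- **Inflation–restriction in degree 2, injectivity of inflation**: if `H¹(S, A) = 0`, the
inflation map `H²(G ⧸ S, A^S) ⟶ H²(G, A)` is a monomorphism. -/
theorem H2InfRes_mono (h1 : ∀ x : H1 (res S.subtype A), x = 0) : Mono (H2InfRes A S).f := by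
  rw [ModuleCat.mono_iff_injective, injective_iff_map_eq_zero]
  intro x hx
  induction x using H2_induction_on with | @h z =>
  have hx' : map (QuotientGroup.mk' S) (ofHom <| A.ρ.quotientToInvariants_lift S) 2
      (H2π (A.quotientToInvariants S) z) = 0 := hx
  rw [H2π_comp_map_apply] at hx'
  rcases (H2π_eq_zero_iff _).1 hx' with ⟨(c : G → A), hc⟩
  obtain ⟨b, hb⟩ := exists_cochain_of_inflation_eq_dOne A S h1 z c (fun g h => by
    have := congr_fun hc (g, h)
    rw [d₁₂_hom_apply] at this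
    exact this.symm)
  exact (H2π_eq_zero_iff _).2 ⟨b, hb⟩

end main

section corollaries

/-- Generic counting lemma: in an exact sequence `0 → X₁ → X₂ → X₃` of additive groups with `X₁`,
`X₃` finite, `X₂` is finite and `|X₂|` divides `|X₁| * |X₃|`. -/
lemma finite_and_card_dvd_of_exact {X₁ X₂ X₃ : Type*} [AddCommGroup X₁] [AddCommGroup X₂]
    [AddCommGroup X₃] [Finite X₁] [Finite X₃] (f : X₁ →+ X₂) (g : X₂ →+ X₃)
    (hfg : ∀ x, g x = 0 → ∃ y, f y = x) :
    Finite X₂ ∧ Nat.card X₂ ∣ Nat.card X₁ * Nat.card X₃ := by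
  have h1 : Nat.card X₂ = Nat.card (X₂ ⧸ g.ker) * Nat.card g.ker :=
    AddSubgroup.card_eq_card_quotient_mul_card_addSubgroup g.ker
  have h2 : Nat.card (X₂ ⧸ g.ker) = Nat.card g.range :=
    Nat.card_congr (QuotientAddGroup.quotientKerEquivRange g).toEquiv
  have h3 : Nat.card g.range ∣ Nat.card X₃ := AddSubgroup.card_addSubgroup_dvd_card g.range
  have hle : g.ker ≤ f.range := fun x hx => hfg x hx
  have h4 : Nat.card g.ker ∣ Nat.card f.range := by
    have := AddSubgroup.card_addSubgroup_dvd_card (g.ker.addSubgroupOf f.range)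
    rwa [Nat.card_congr (AddSubgroup.addSubgroupOfEquivOfLe hle).toEquiv] at this
  have h5 : Nat.card f.range ∣ Nat.card X₁ := AddSubgroup.card_range_dvd f
  have hdvd : Nat.card X₂ ∣ Nat.card X₁ * Nat.card X₃ := by
    rw [h1, h2, mul_comm]
    exact mul_dvd_mul (h4.trans h5) h3
  refine ⟨?_, hdvd⟩
  have hfin1 : Finite g.range := inferInstance
  have hfin2 : Finite f.range := Finite.of_surjective f.rangeRestrict f.rangeRestrict_surjective
  have hfin3 : Finite g.ker := Finite.of_injective (fun x : g.ker => (⟨x.1, hle x.2⟩ : f.range))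
    (fun x y h => Subtype.ext (congrArg (fun z : f.range => (z : X₂)) h))
  have hfin4 : Finite (X₂ ⧸ g.ker) := Finite.of_equiv _ (QuotientAddGroup.quotientKerEquivRange g).symm.toEquiv
  apply Nat.finite_of_card_ne_zero
  rw [h1]
  exact Nat.mul_ne_zero Nat.card_pos.ne' Nat.card_pos.ne'

/-- `|H²(G, A)|` divides `|H²(G ⧸ S, A^S)| * |H²(S, A)|` when `H¹(S, A) = 0`. -/
theorem card_H2_dvd (h1 : ∀ x : H1 (res S.subtype A), x = 0)
    [Finite (groupCohomology (A.quotientToInvariants S) 2)]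
    [Finite (groupCohomology (res S.subtype A) 2)] :
    Finite (groupCohomology A 2) ∧
      Nat.card (groupCohomology A 2) ∣ Nat.card (groupCohomology (A.quotientToInvariants S) 2) *
        Nat.card (groupCohomology (res S.subtype A) 2) := by
  have hex := (ShortComplex.moduleCat_exact_iff _).1 (H2InfRes_exact A S h1)
  exact finite_and_card_dvd_of_exact (H2InfRes A S).f.hom.toAddMonoidHom
    (H2InfRes A S).g.hom.toAddMonoidHom (fun x hx => hex x hx)

/-- If `H¹(S, A) = 0` and `H¹(G ⧸ S, A^S) = 0` then `H¹(G, A) = 0`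
(from Mathlib's `groupCohomology.H1InfRes_exact`). -/
theorem H1_eq_zero_of_infRes (hS : ∀ x : H1 (res S.subtype A), x = 0)
    (hQ : ∀ x : H1 (A.quotientToInvariants S), x = 0) (x : H1 A) : x = 0 := by
  obtain ⟨y, rfl⟩ := (ShortComplex.moduleCat_exact_iff _).1 (H1InfRes_exact A S) x (hS _)
  have hy : y = 0 := hQ y
  subst hy
  exact map_zero _

/-- If `H¹(S, A) = 0`, `H²(S, A) = 0` and `H²(G ⧸ S, A^S) = 0` then `H²(G, A) = 0`. -/
theorem H2_eq_zero_of_infRes (h1 : ∀ x : H1 (res S.subtype A), x = 0)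
    (hS : ∀ x : H2 (res S.subtype A), x = 0)
    (hQ : ∀ x : H2 (A.quotientToInvariants S), x = 0) (x : H2 A) : x = 0 := by
  obtain ⟨y, rfl⟩ := (ShortComplex.moduleCat_exact_iff _).1 (H2InfRes_exact A S h1) x (hS _)
  have hy : y = 0 := hQ y
  subst hy
  exact map_zero _

/-- `IsZero` form of the hypothesis. -/
lemma forall_eq_zero_of_isZero {M : ModuleCat.{u} k} (h : Limits.IsZero M) (x : M) : x = 0 :=
  (ModuleCat.subsingleton_of_isZero h).elim _ _

theorem H2InfRes_exact_of_isZero (h1 : Limits.IsZero (groupCohomology (res S.subtype A) 1)) :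
    (H2InfRes A S).Exact :=
  H2InfRes_exact A S (forall_eq_zero_of_isZero h1)

theorem H2InfRes_mono_of_isZero (h1 : Limits.IsZero (groupCohomology (res S.subtype A) 1)) :
    Mono (H2InfRes A S).f :=
  H2InfRes_mono A S (forall_eq_zero_of_isZero h1)

end corollaries

end Fermat.Agent.S55.InfRes98
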